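import Fermat.Agent.GoodReductionModular.Bounded
import Fermat.Agent.GoodReduction.OfBasis

/-!
# Gauss reductions of fields of Laurent series

`F ⊆ K((q))` consists of quotients of bounded series; integral series in `F` reduce into `κ`.
-/

set_option autoImplicit false

noncomputable section

open ModularCurve Fermat.Agent.GoodReduction

namespace Fermat.Agent.GoodReductionModular

variable {K k : Type*} [Field K] [Field k] {A : ValuationSubring K} {π : A →+* k}
variable (F : IntermediateField K (LaurentSeries K)) (κ : IntermediateField k (LaurentSeries k))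

/-- Hypotheses for the Gauss reduction. -/
structure GaussInput (π : A →+* k) : Prop where
  surjective : Function.Surjective π
  bounded : ∀ f ∈ F, ∃ a b : LaurentSeries K, a ∈ boundedSeries K ∧ b ∈ boundedSeries K ∧
    a ∈ F ∧ b ∈ F ∧ b ≠ 0 ∧ f * b = a
  coeffMap_mem : ∀ y : LaurentSeries A, liftK A y ∈ F → coeffMap π y ∈ κ

/-- `f` is a quotient of integral series of `F`, the denominator with nonzero reduction. -/
def IsGaussInt (π : A →+* k) (f : LaurentSeries K) : Prop :=
  ∃ y₁ y₂ : LaurentSeries A, liftK A y₁ ∈ F ∧ liftK A y₂ ∈ F ∧ coeffMap π y₂ ≠ 0 ∧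
    f * liftK A y₂ = liftK A y₁

variable {F κ}

/-- Constant series lift to constants. -/
theorem liftK_C (a : A) : liftK A (HahnSeries.C a) = algebraMap K (LaurentSeries K) (a : K) := by
  rw [algebraMap_laurentSeries_eq_single, liftK, HahnSeries.C_apply, coeffMap_single]
  rfl

theorem coeffMap_C_eq (a : A) :
    coeffMap π (HahnSeries.C a) = algebraMap k (LaurentSeries k) (π a) := by
  rw [algebraMap_laurentSeries_eq_single, HahnSeries.C_apply, coeffMap_single]

theorem IsGaussInt.of_liftK {y : LaurentSeries A} (hy : liftK A y ∈ F) :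
    IsGaussInt F π (liftK A y) :=
  ⟨y, 1, hy, by rw [map_one]; exact one_mem _, by rw [map_one]; exact one_ne_zero,
    by rw [map_one, mul_one]⟩

/-- Gauss-integral series are closed under addition. -/
theorem IsGaussInt.add {f g : LaurentSeries K} (hf : IsGaussInt F π f) (hg : IsGaussInt F π g) :
    IsGaussInt F π (f + g) := by
  obtain ⟨a, b, ha, hb, hb0, e⟩ := hf
  obtain ⟨c, d, hc, hd, hd0, e'⟩ := hg
  refine ⟨a * d + c * b, b * d, ?_, ?_, ?_, ?_⟩
  · rw [map_add, map_mul, map_mul]; exact add_mem (mul_mem ha hd) (mul_mem hc hb)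
  · rw [map_mul]; exact mul_mem hb hd
  · rw [map_mul]; exact mul_ne_zero hb0 hd0
  · rw [map_add, map_mul, map_mul, map_mul]
    linear_combination (liftK A d) * e + (liftK A b) * e'

/-- Gauss-integral series are closed under multiplication. -/
theorem IsGaussInt.mul {f g : LaurentSeries K} (hf : IsGaussInt F π f) (hg : IsGaussInt F π g) :
    IsGaussInt F π (f * g) := by
  obtain ⟨a, b, ha, hb, hb0, e⟩ := hf
  obtain ⟨c, d, hc, hd, hd0, e'⟩ := hg
  refine ⟨a * c, b * d, ?_, ?_, ?_, ?_⟩
  · rw [map_mul]; exact mul_mem ha hc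
  · rw [map_mul]; exact mul_mem hb hd
  · rw [map_mul]; exact mul_ne_zero hb0 hd0
  · rw [map_mul, map_mul, ← e, ← e']; ring

/-- Gauss-integral series are closed under negation. -/
theorem IsGaussInt.neg {f : LaurentSeries K} (hf : IsGaussInt F π f) : IsGaussInt F π (-f) := by
  obtain ⟨a, b, ha, hb, hb0, e⟩ := hf
  exact ⟨-a, b, by rw [map_neg]; exact neg_mem ha, hb, hb0, by rw [map_neg, ← e, neg_mul]⟩

variable (H : GaussInput F κ π)
include H

/-- An element of `F` is, up to a scalar, a quotient of integral series with nonzero reduction. -/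
theorem exists_quotient {f : LaurentSeries K} (hfF : f ∈ F) (hf0 : f ≠ 0) :
    ∃ (c : K) (y₁ y₂ : LaurentSeries A), c ≠ 0 ∧ liftK A y₁ ∈ F ∧ liftK A y₂ ∈ F ∧
      coeffMap π y₁ ≠ 0 ∧ coeffMap π y₂ ≠ 0 ∧
      f * liftK A y₂ = algebraMap K (LaurentSeries K) c * liftK A y₁ := by
  obtain ⟨a, b, ha, hb, haF, hbF, hb0, hab⟩ := H.bounded f hfF
  have ha0 : a ≠ 0 := hab ▸ mul_ne_zero hf0 hb0
  obtain ⟨c₁, y₁, n₁, hc₁, hy₁, hn₁⟩ := exists_normalize (A := A) ha ha0
  obtain ⟨c₂, y₂, n₂, hc₂, hy₂, hn₂⟩ := exists_normalize (A := A) hb hb0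
  refine ⟨c₂ * c₁⁻¹, y₁, y₂, mul_ne_zero hc₂ (inv_ne_zero hc₁), ?_, ?_,
    coeffMap_ne_zero_of_coeff_eq_one hn₁, coeffMap_ne_zero_of_coeff_eq_one hn₂, ?_⟩
  · rw [hy₁]; exact mul_mem (F.algebraMap_mem _) haF
  · rw [hy₂]; exact mul_mem (F.algebraMap_mem _) hbF
  · rw [hy₁, hy₂, ← hab, map_mul]
    have : algebraMap K (LaurentSeries K) c₁⁻¹ * algebraMap K (LaurentSeries K) c₁ = 1 := by
      rw [← map_mul, inv_mul_cancel₀ hc₁, map_one]
    linear_combination (-(algebraMap K (LaurentSeries K) c₂) * f * b) * this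

/-- `f` or `f⁻¹` is integral. -/
theorem isGaussInt_or_inv (f : F) :
    IsGaussInt F π (f : LaurentSeries K) ∨ IsGaussInt F π ((f⁻¹ : F) : LaurentSeries K) := by
  rcases eq_or_ne f 0 with rfl | hf
  · left
    exact ⟨0, 1, by rw [map_zero]; exact zero_mem _, by rw [map_one]; exact one_mem _,
      by rw [map_one]; exact one_ne_zero, by simp⟩
  have hf0 : (f : LaurentSeries K) ≠ 0 := fun h => hf (Subtype.ext h)
  obtain ⟨c, y₁, y₂, hc, h1, h2, r1, r2, e⟩ := exists_quotient H f.2 hf0
  rcases A.mem_or_inv_mem c with hA | hA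
  · left
    refine ⟨HahnSeries.C ⟨c, hA⟩ * y₁, y₂, ?_, h2, r2, ?_⟩
    · rw [map_mul, liftK_C]; exact mul_mem (F.algebraMap_mem _) h1
    · rw [map_mul, liftK_C, e]
  · right
    refine ⟨HahnSeries.C ⟨c⁻¹, hA⟩ * y₂, y₁, ?_, h1, r1, ?_⟩
    · rw [map_mul, liftK_C]; exact mul_mem (F.algebraMap_mem _) h2
    · rw [map_mul, liftK_C]
      show ((f⁻¹ : F) : LaurentSeries K) * liftK A y₁ =
        algebraMap K (LaurentSeries K) c⁻¹ * liftK A y₂
      rw [map_inv₀, IntermediateField.coe_inv]
      have hc' : algebraMap K (LaurentSeries K) c ≠ 0 := (map_ne_zero _).mpr hc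
      field_simp
      linear_combination -e

/-- The Gauss valuation ring of `F`. -/
def gaussV : ValuationSubring F where
  carrier := {f | IsGaussInt F π (f : LaurentSeries K)}
  mul_mem' := fun hf hg => hf.mul hg
  one_mem' := ⟨1, 1, by rw [map_one]; exact one_mem _, by rw [map_one]; exact one_mem _,
    by rw [map_one]; exact one_ne_zero, by simp⟩
  add_mem' := fun hf hg => hf.add hg
  zero_mem' := ⟨0, 1, by rw [map_zero]; exact zero_mem _, by rw [map_one]; exact one_mem _,
    by rw [map_one]; exact one_ne_zero, by simp⟩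
  neg_mem' := fun hf => hf.neg
  mem_or_inv_mem' := isGaussInt_or_inv H

/-- Membership in the Gauss valuation ring is Gauss integrality. -/
theorem mem_gaussV {f : F} : f ∈ gaussV H ↔ IsGaussInt F π (f : LaurentSeries K) := Iff.rfl

/-- The numerator of a chosen representation. -/
def gaussNum (f : gaussV H) : LaurentSeries A := f.2.choose

/-- The denominator of a chosen representation. -/
def gaussDen (f : gaussV H) : LaurentSeries A := f.2.choose_spec.choose

theorem gauss_spec (f : gaussV H) : liftK A (gaussNum H f) ∈ F ∧ liftK A (gaussDen H f) ∈ F ∧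
    coeffMap π (gaussDen H f) ≠ 0 ∧
    ((f : F) : LaurentSeries K) * liftK A (gaussDen H f) = liftK A (gaussNum H f) :=
  f.2.choose_spec.choose_spec

/-- The residue. -/
def gaussResFun (f : gaussV H) : κ :=
  ⟨coeffMap π (gaussNum H f) / coeffMap π (gaussDen H f),
    div_mem (H.coeffMap_mem _ (gauss_spec H f).1) (H.coeffMap_mem _ (gauss_spec H f).2.1)⟩

/-- The residue can be computed from any representation as a quotient. -/
theorem gaussResFun_eq (f : gaussV H) {y₁ y₂ : LaurentSeries A} (h0 : coeffMap π y₂ ≠ 0)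
    (e : ((f : F) : LaurentSeries K) * liftK A y₂ = liftK A y₁) :
    (gaussResFun H f : LaurentSeries k) = coeffMap π y₁ / coeffMap π y₂ := by
  obtain ⟨-, -, hd, e'⟩ := gauss_spec H f
  show coeffMap π (gaussNum H f) / coeffMap π (gaussDen H f) = _
  rw [div_eq_div_iff hd h0, ← map_mul, ← map_mul]
  congr 1
  refine liftK_injective ?_
  rw [map_mul, map_mul, ← e, ← e']
  ring

/-- The residue map. -/
def gaussRes : gaussV H →+* κ where
  toFun := gaussResFun H
  map_one' := Subtype.ext (by
    rw [gaussResFun_eq H 1 (y₁ := 1) (y₂ := 1) (by simp) (by simp)]; simp)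
  map_zero' := Subtype.ext (by
    rw [gaussResFun_eq H 0 (y₁ := 0) (y₂ := 1) (by simp) (by simp)]; simp)
  map_mul' f g := Subtype.ext (by
    obtain ⟨-, -, hd, e⟩ := gauss_spec H f
    obtain ⟨-, -, hd', e'⟩ := gauss_spec H g
    rw [gaussResFun_eq H (f * g) (y₁ := gaussNum H f * gaussNum H g)
      (y₂ := gaussDen H f * gaussDen H g) (by rw [map_mul]; exact mul_ne_zero hd hd')
      (by
        show ((f : F) : LaurentSeries K) * ((g : F) : LaurentSeries K) * _ = _
        rw [map_mul, map_mul, ← e, ← e']; ring)]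
    show _ = coeffMap π (gaussNum H f) / coeffMap π (gaussDen H f) *
      (coeffMap π (gaussNum H g) / coeffMap π (gaussDen H g))
    rw [map_mul, map_mul, div_mul_div_comm])
  map_add' f g := Subtype.ext (by
    obtain ⟨-, -, hd, e⟩ := gauss_spec H f
    obtain ⟨-, -, hd', e'⟩ := gauss_spec H g
    rw [gaussResFun_eq H (f + g) (y₁ := gaussNum H f * gaussDen H g + gaussNum H g * gaussDen H f)
      (y₂ := gaussDen H f * gaussDen H g) (by rw [map_mul]; exact mul_ne_zero hd hd')
      (by
        show (((f : F) : LaurentSeries K) + ((g : F) : LaurentSeries K)) * _ = _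
        rw [map_mul, map_add, map_mul, map_mul, ← e, ← e']; ring)]
    show _ = coeffMap π (gaussNum H f) / coeffMap π (gaussDen H f) +
      coeffMap π (gaussNum H g) / coeffMap π (gaussDen H g)
    rw [map_mul, map_add, map_mul, map_mul, div_add_div _ _ hd hd']
    ring)

theorem algebraMap_mem_gaussV (a : A) : algebraMap K F a ∈ gaussV H := by
  rw [mem_gaussV]
  show IsGaussInt F π (algebraMap K (LaurentSeries K) (a : K))
  rw [← liftK_C]
  exact IsGaussInt.of_liftK (by rw [liftK_C]; exact F.algebraMap_mem _)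

theorem gaussRes_algebraMap (a : A) :
    gaussRes H ⟨algebraMap K F a, algebraMap_mem_gaussV H a⟩ = algebraMap k κ (π a) := by
  refine Subtype.ext ?_
  show (gaussResFun H _ : LaurentSeries k) = algebraMap k (LaurentSeries k) (π a)
  rw [gaussResFun_eq H _ (y₁ := HahnSeries.C a) (y₂ := 1) (by simp)
    (by rw [map_one, mul_one, liftK_C]; rfl), coeffMap_C_eq, map_one, div_one]

theorem isUnit_of_gaussRes_ne_zero (f : gaussV H) (hf : gaussRes H f ≠ 0) : IsUnit f := by
  obtain ⟨hn, hd, hd0, e⟩ := gauss_spec H f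
  have hn0 : coeffMap π (gaussNum H f) ≠ 0 := fun h => hf (Subtype.ext (by
    show (gaussResFun H f : LaurentSeries k) = 0
    rw [gaussResFun_eq H f hd0 e, h, zero_div]))
  have hf0 : (f : F) ≠ 0 := fun h => hn0 (by
    rw [h] at e
    rw [show gaussNum H f = 0 from liftK_injective (by rw [← e]; simp), map_zero])
  have hmem : (f : F)⁻¹ ∈ gaussV H := by
    refine ⟨gaussDen H f, gaussNum H f, hd, hn, hn0, ?_⟩
    have hf0' : ((f : F) : LaurentSeries K) ≠ 0 := fun h => hf0 (Subtype.ext h)
    rw [IntermediateField.coe_inv, ← e, ← mul_assoc, inv_mul_cancel₀ hf0', one_mul]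
  exact ⟨⟨f, ⟨_, hmem⟩, Subtype.ext (mul_inv_cancel₀ hf0), Subtype.ext (inv_mul_cancel₀ hf0)⟩, rfl⟩

theorem le_finrank_resSpan (W : Submodule K F) [FiniteDimensional K W] :
    Module.finrank K W ≤ Module.finrank k (resSpan (k := k) (gaussRes H) W) := by
  classical
  have := (finrank_resSpan_le (algebraMap_mem_gaussV H) (gaussRes_algebraMap H) W).1
  obtain ⟨S, hS⟩ : W.FG := Submodule.fg_iff_finiteDimensional W |>.mpr inferInstance
  choose num den hnum hden hnumF hdenF hden0 heq using fun f : F => H.bounded f f.2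
  set Q : LaurentSeries K := ∏ f ∈ S, den f with hQ
  have hQb : Q ∈ boundedSeries K := Subring.prod_mem _ fun f _ => hden f
  have hQF : Q ∈ F := prod_mem fun f _ => hdenF f
  have hQ0 : Q ≠ 0 := Finset.prod_ne_zero_iff.mpr fun f _ => hden0 f
  obtain ⟨c, yQ, n, hc, hyQ, hn⟩ := exists_normalize (A := A) hQb hQ0
  have hyQF : liftK A yQ ∈ F := by rw [hyQ]; exact mul_mem (F.algebraMap_mem _) hQF
  have hyQ0 : liftK A yQ ≠ 0 := by
    rw [hyQ]; exact mul_ne_zero ((map_ne_zero _).mpr hc) hQ0
  let T : F →ₗ[K] LaurentSeries K :=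
    { toFun := fun w => (w : LaurentSeries K) * liftK A yQ
      map_add' := fun a b => by rw [← add_mul]; rfl
      map_smul' := fun r a => by
        rw [RingHom.id_apply, smul_eq_algebraMap_mul, ← mul_assoc, Algebra.smul_def]
        rfl }
  have hT : Function.Injective T := fun a b h => Subtype.ext (mul_right_cancel₀ hyQ0 h)
  have hWb : ∀ z ∈ W.map T, z ∈ boundedSeries K ∧ z ∈ F := by
    rintro z ⟨w, hw, rfl⟩
    refine ⟨?_, mul_mem w.2 hyQF⟩
    rw [← hS] at hw
    induction hw using Submodule.span_induction with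
    | mem f hf =>
      show (f : LaurentSeries K) * liftK A yQ ∈ _
      rw [hyQ, hQ, ← Finset.mul_prod_erase S den hf, mul_left_comm,
        ← mul_assoc (f : LaurentSeries K),
        heq f]
      exact mul_mem (algebraMap_mem_boundedSeries c) (mul_mem (hnum f)
        (Subring.prod_mem _ fun f' _ => hden f'))
    | zero => simp [zero_mem]
    | add a b _ _ ha hb => rw [map_add]; exact add_mem ha hb
    | smul r a _ ha =>
      rw [map_smul, smul_eq_algebraMap_mul]
      exact mul_mem (algebraMap_mem_boundedSeries r) ha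
  obtain ⟨u, huW, hu⟩ := exists_independent_residues π (Module.finrank K W) (W.map T)
    (Submodule.equivMapOfInjective T hT W).finrank_eq.symm fun z hz => (hWb z hz).1
  choose x hx hxu using fun i => Submodule.mem_map.mp (huW i)
  have hxV : ∀ i, x i ∈ gaussV H := fun i =>
    ⟨u i, yQ, by rw [← hxu i]; exact mul_mem (x i).2 hyQF, hyQF,
      coeffMap_ne_zero_of_coeff_eq_one hn, hxu i⟩
  have hres : ∀ i, (gaussRes H ⟨x i, hxV i⟩ : LaurentSeries k)
      = coeffMap π (u i) / coeffMap π yQ := fun i =>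
    gaussResFun_eq H _ (coeffMap_ne_zero_of_coeff_eq_one hn) (hxu i)
  have hli : LinearIndependent k fun i => gaussRes H ⟨x i, hxV i⟩ := by
    rw [Fintype.linearIndependent_iff] at hu ⊢
    intro g hg
    refine hu g ?_
    have h2 := congrArg (fun z : κ => (z : LaurentSeries k) * coeffMap π yQ) hg
    simp only [ZeroMemClass.coe_zero, zero_mul, AddSubmonoidClass.coe_finsetSum,
      Finset.sum_mul] at h2
    rw [← h2]
    refine Finset.sum_congr rfl fun i _ => ?_
    rw [smul_eq_algebraMap_mul, Algebra.smul_def]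
    show _ = algebraMap k (LaurentSeries k) (g i) *
      (gaussRes H ⟨x i, hxV i⟩ : LaurentSeries k) * coeffMap π yQ
    rw [hres, mul_assoc, div_mul_cancel₀ _ (coeffMap_ne_zero_of_coeff_eq_one hn)]
  have hli' : LinearIndependent k fun i => (⟨gaussRes H ⟨x i, hxV i⟩,
      Submodule.subset_span ⟨⟨x i, hxV i⟩, hx i, rfl⟩⟩ : resSpan (k := k) (gaussRes H) W) :=
    LinearIndependent.of_comp (resSpan (k := k) (gaussRes H) W).subtype hli
  simpa using hli'.fintype_card_le_finrank

/-- The Gauss reduction. -/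
def gaussReduction : Reduction F κ A π where
  V := gaussV H
  res := gaussRes H
  surjective := H.surjective
  algebraMap_mem := algebraMap_mem_gaussV H
  res_algebraMap := gaussRes_algebraMap H
  isUnit_of_res_ne_zero := isUnit_of_gaussRes_ne_zero H
  orth W _ := le_antisymm
    (finrank_resSpan_le (algebraMap_mem_gaussV H) (gaussRes_algebraMap H) W).2
    (le_finrank_resSpan H W)

/-- Integral series of `F` lie in the ring of the Gauss reduction. -/
theorem liftK_mem_gaussReduction {y : LaurentSeries A} (hy : liftK A y ∈ F) :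
    (⟨liftK A y, hy⟩ : F) ∈ (gaussReduction H).V :=
  IsGaussInt.of_liftK hy

/-- The residue of an integral series is its reduction. -/
theorem gaussReduction_res_liftK {y : LaurentSeries A} (hy : liftK A y ∈ F) :
    ((gaussReduction H).res ⟨⟨liftK A y, hy⟩, liftK_mem_gaussReduction H hy⟩ : LaurentSeries k)
      = coeffMap π y := by
  show (gaussResFun H _ : LaurentSeries k) = _
  rw [gaussResFun_eq H _ (y₁ := y) (y₂ := 1) (by simp) (by simp)]
  simp

/-- The residue of the Gauss reduction can be computed from any quotient. -/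
theorem gaussReduction_res_eq (f : (gaussReduction H).V) {y₁ y₂ : LaurentSeries A}
    (h0 : coeffMap π y₂ ≠ 0)
    (e : ((f : F) : LaurentSeries K) * liftK A y₂ = liftK A y₁) :
    ((gaussReduction H).res f : LaurentSeries k) = coeffMap π y₁ / coeffMap π y₂ :=
  gaussResFun_eq H f h0 e

/-- Unfolds membership in the Gauss ring as a quotient of integral series. -/
theorem exists_gaussReduction_quotient (f : (gaussReduction H).V) :
    ∃ y₁ y₂ : LaurentSeries A, liftK A y₁ ∈ F ∧ liftK A y₂ ∈ F ∧ coeffMap π y₂ ≠ 0 ∧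
      ((f : F) : LaurentSeries K) * liftK A y₂ = liftK A y₁ :=
  f.2

end Fermat.Agent.GoodReductionModular
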