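import Fermat.Prelude.Def_ModularCurve_LaurentCoeff
import Mathlib.RingTheory.Valuation.ValuationSubring
import Mathlib.RingTheory.Finiteness.Subalgebra
import Mathlib.RingTheory.Noetherian.Basic
import Mathlib.LinearAlgebra.FiniteDimensional.Lemmas
import Mathlib.Tactic

/-!
# Laurent series with coefficients in a finitely generated group, and their Gauss norm

The coefficients of such a series attain their maximal valuation, so a suitable scalar multiple has
integral coefficients and nonzero reduction.
-/

set_option autoImplicit false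

noncomputable section

open ModularCurve

namespace Fermat.Agent.GoodReductionModular

variable {K k : Type*} [Field K] [Field k] {A : ValuationSubring K} {π : A →+* k}

variable (K) in
/-- Series whose coefficients lie in a finitely generated subgroup. -/
def boundedSeries : Subring (LaurentSeries K) where
  carrier := {f | ∃ M : Submodule ℤ K, M.FG ∧ ∀ n, f.coeff n ∈ M}
  mul_mem' := by
    rintro f g ⟨M, hM, hf⟩ ⟨M', hM', hg⟩
    refine ⟨M * M', hM.mul hM', fun n => ?_⟩
    rw [HahnSeries.coeff_mul]
    exact Submodule.sum_mem _ fun p _ => Submodule.mul_mem_mul (hf _) (hg _)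
  one_mem' := ⟨Submodule.span ℤ {1}, Submodule.fg_span_singleton _, fun n => by
    rw [HahnSeries.coeff_one]
    split
    · exact Submodule.mem_span_singleton_self _
    · exact zero_mem _⟩
  add_mem' := by
    rintro f g ⟨M, hM, hf⟩ ⟨M', hM', hg⟩
    exact ⟨M ⊔ M', hM.sup hM', fun n => by
      rw [HahnSeries.coeff_add]
      exact Submodule.add_mem _ (Submodule.mem_sup_left (hf _)) (Submodule.mem_sup_right (hg _))⟩
  zero_mem' := ⟨⊥, Submodule.fg_bot, fun n => by simp⟩
  neg_mem' := by
    rintro f ⟨M, hM, hf⟩
    exact ⟨M, hM, fun n => by rw [HahnSeries.coeff_neg]; exact M.neg_mem (hf _)⟩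

/-- Constants are bounded. -/
theorem algebraMap_mem_boundedSeries (c : K) :
    algebraMap K (LaurentSeries K) c ∈ boundedSeries K :=
  ⟨Submodule.span ℤ {c}, Submodule.fg_span_singleton _, fun n => by
    rw [algebraMap_laurentSeries_eq_single]
    rcases eq_or_ne n 0 with rfl | hn
    · simp
    · rw [HahnSeries.coeff_single_of_ne hn]; exact zero_mem _⟩

/-- Integral series are bounded. -/
theorem coeffMap_intCast_mem_boundedSeries (s : LaurentSeries ℤ) :
    coeffMap (Int.castRingHom K) s ∈ boundedSeries K :=
  ⟨Submodule.span ℤ {1}, Submodule.fg_span_singleton _, fun n => by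
    rw [coeffMap_coeff, Submodule.mem_span_singleton]
    exact ⟨s.coeff n, by simp⟩⟩

variable (A) in
/-- The coefficientwise inclusion. -/
def liftK : LaurentSeries A →+* LaurentSeries K := coeffMap A.subtype

/-- A series over `A` is determined by its image over `K`. -/
theorem liftK_injective : Function.Injective (liftK A) := fun _ _ h =>
  HahnSeries.ext (funext fun n => Subtype.coe_injective
    (congrArg (fun z : LaurentSeries K => z.coeff n) h))

/-- The coefficients of `liftK A y` are those of `y`. -/
theorem liftK_coeff (y : LaurentSeries A) (n : ℤ) : (liftK A y).coeff n = (y.coeff n : K) := rfl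

/-- Some coefficient of a bounded series has maximal valuation. -/
theorem exists_max_coeff {f : LaurentSeries K} (hf : f ∈ boundedSeries K) (hf0 : f ≠ 0) :
    ∃ n, f.coeff n ≠ 0 ∧ ∀ i, f.coeff i / f.coeff n ∈ A := by
  obtain ⟨M, hM, hfM⟩ := hf
  have : Module.Finite ℤ M := Module.Finite.iff_fg.mpr hM
  have hfg : (Submodule.span ℤ (Set.range f.coeff)).FG :=
    isNoetherian_submodule.mp (inferInstance : IsNoetherian ℤ M) _
      (Submodule.span_le.mpr (by rintro x ⟨i, rfl⟩; exact hfM i))
  obtain ⟨t, ht, hspan⟩ := (Submodule.fg_span_iff_fg_span_finset_subset _).mp hfg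
  obtain ⟨n₀, hn₀⟩ : ∃ n, f.coeff n ≠ 0 := by
    by_contra hall
    push Not at hall
    exact hf0 (HahnSeries.ext (funext fun n => by simpa using hall n))
  have hbound : ∀ x ∈ Submodule.span ℤ (t : Set K), ∀ γ, (∀ y ∈ t, A.valuation y ≤ γ) →
      A.valuation x ≤ γ := by
    intro x hx γ hγ
    induction hx using Submodule.span_induction with
    | mem y hy => exact hγ y hy
    | zero => rw [map_zero]; exact zero_le
    | add a b _ _ ha hb => exact (Valuation.map_add _ _ _).trans (max_le ha hb)
    | smul m a _ ha =>
      rw [zsmul_eq_mul, map_mul]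
      have : A.valuation (m : K) ≤ 1 :=
        (A.valuation_le_one_iff _).mpr (SubringClass.coe_intCast A m ▸ (m : A).2)
      calc A.valuation (m : K) * A.valuation a ≤ 1 * γ := mul_le_mul' this ha
        _ = γ := one_mul γ
  have hne : t.Nonempty := by
    by_contra hem
    rw [Finset.not_nonempty_iff_eq_empty] at hem
    have : f.coeff n₀ ∈ Submodule.span ℤ (Set.range f.coeff) := Submodule.subset_span ⟨n₀, rfl⟩
    rw [hspan, hem, Finset.coe_empty, Submodule.span_empty, Submodule.mem_bot] at this
    exact hn₀ this
  obtain ⟨y₀, hy₀, hmax⟩ := t.exists_max_image (fun y => A.valuation y) hne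
  obtain ⟨n, hn⟩ := ht hy₀
  have hle : ∀ i, A.valuation (f.coeff i) ≤ A.valuation (f.coeff n) := fun i => by
    rw [hn]
    exact hbound _ (hspan ▸ Submodule.subset_span ⟨i, rfl⟩) _ hmax
  have hn0 : f.coeff n ≠ 0 := fun h => by
    have := hle n₀
    rw [h, map_zero, le_zero_iff, map_eq_zero] at this
    exact hn₀ this
  refine ⟨n, hn0, fun i => ?_⟩
  rw [← A.valuation_le_one_iff, map_div₀]
  exact (div_le_one₀ (zero_lt_iff.mpr ((A.valuation.ne_zero_iff).mpr hn0))).mpr (hle i)

/-- A bounded nonzero series is a scalar times an integral series with nonzero reduction. -/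
theorem exists_normalize {f : LaurentSeries K} (hf : f ∈ boundedSeries K) (hf0 : f ≠ 0) :
    ∃ (c : K) (y : LaurentSeries A) (n : ℤ), c ≠ 0 ∧
      liftK A y = algebraMap K (LaurentSeries K) c * f ∧ y.coeff n = 1 := by
  obtain ⟨n, hn, hA⟩ := exists_max_coeff (A := A) hf hf0
  refine ⟨(f.coeff n)⁻¹,
    { coeff := fun i => ⟨(f.coeff n)⁻¹ * f.coeff i, by rw [inv_mul_eq_div]; exact hA i⟩
      isPWO_support' := f.isPWO_support'.mono fun i hi => by
        simp only [Function.mem_support] at hi ⊢
        exact fun h => hi (Subtype.ext (by simp [h])) },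
    n, inv_ne_zero hn, ?_, Subtype.ext (inv_mul_cancel₀ hn)⟩
  ext i
  rw [algebraMap_laurentSeries_eq_single, HahnSeries.coeff_single_zero_mul]
  rfl

/-- A series with some coefficient `1` has nonzero reduction. -/
theorem coeffMap_ne_zero_of_coeff_eq_one {y : LaurentSeries A} {n : ℤ} (h : y.coeff n = 1) :
    coeffMap π y ≠ 0 := fun h0 => by
  have := congrArg (fun z : LaurentSeries k => z.coeff n) h0
  simp [h] at this

/-- Scalar multiplication on Laurent series is multiplication by a constant. -/
theorem smul_eq_algebraMap_mul (c : K) (f : LaurentSeries K) :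
    c • f = algebraMap K (LaurentSeries K) c * f := by
  rw [algebraMap_laurentSeries_eq_single, ← HahnSeries.C_apply, HahnSeries.C_mul_eq_smul]

variable (π) in
/-- Finite-dimensional spaces of bounded series reduce to spaces of the same dimension. -/
theorem exists_independent_residues : ∀ (d : ℕ) (W : Submodule K (LaurentSeries K))
    [FiniteDimensional K W], Module.finrank K W = d → (∀ f ∈ W, f ∈ boundedSeries K) →
    ∃ u : Fin d → LaurentSeries A, (∀ i, liftK A (u i) ∈ W) ∧
      LinearIndependent k fun i => coeffMap π (u i)
  | 0, _, _, _, _ => ⟨Fin.elim0, fun i => i.elim0, linearIndependent_empty_type⟩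
  | d + 1, W, _, hd, hW => by
    have hne : W ≠ ⊥ := fun h => by rw [h, finrank_bot] at hd; omega
    obtain ⟨f, hf, hf0⟩ := Submodule.exists_mem_ne_zero_of_ne_bot hne
    obtain ⟨c, y, n, hc, hy, hyn⟩ := exists_normalize (A := A) (hW f hf) hf0
    have hyW : liftK A y ∈ W := by
      rw [hy, ← smul_eq_algebraMap_mul]
      exact W.smul_mem c hf
    let φ : W →ₗ[K] K :=
      { toFun := fun z => (z : LaurentSeries K).coeff n
        map_add' := fun a b => by simp
        map_smul' := fun r a => by
          rw [Submodule.coe_smul, RingHom.id_apply, smul_eq_mul, HahnSeries.coeff_smul,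
            smul_eq_mul] }
    have hsurj : LinearMap.range φ = ⊤ := by
      refine LinearMap.range_eq_top.mpr fun r => ⟨r • ⟨liftK A y, hyW⟩, ?_⟩
      rw [map_smul, smul_eq_mul]
      show r * (y.coeff n : K) = r
      rw [hyn, OneMemClass.coe_one, mul_one]
    have hker := LinearMap.finrank_range_add_finrank_ker φ
    rw [hsurj, finrank_top, Module.finrank_self, hd] at hker
    set W' := (LinearMap.ker φ).map W.subtype with hW'
    have hd' : Module.finrank K W' = d := by
      rw [hW', (Submodule.equivMapOfInjective _ W.injective_subtype _).finrank_eq.symm]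
      omega
    have hsub : ∀ z ∈ W', z ∈ W ∧ z.coeff n = 0 := by
      rintro z ⟨w, hw, rfl⟩
      exact ⟨w.2, hw⟩
    obtain ⟨u, huW, hu⟩ := exists_independent_residues d W' hd' fun z hz => hW z (hsub z hz).1
    refine ⟨Fin.cons y u, fun i => ?_, ?_⟩
    · refine Fin.cases ?_ ?_ i
      · simpa using hyW
      · intro j; simpa using (hsub _ (huW j)).1
    · have e : (fun i => coeffMap π ((Fin.cons y u : Fin (d + 1) → LaurentSeries A) i))
          = Fin.cons (coeffMap π y) fun i => coeffMap π (u i) := by
        funext i
        refine Fin.cases ?_ ?_ i <;> simp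
      rw [e, linearIndependent_finCons]
      refine ⟨hu, fun hmem => ?_⟩
      have hz : ∀ z ∈ Submodule.span k (Set.range fun i => coeffMap π (u i)), z.coeff n = 0 := by
        intro z hz
        induction hz using Submodule.span_induction with
        | mem z hz =>
          obtain ⟨i, rfl⟩ := hz
          have h0 : (u i).coeff n = 0 := Subtype.ext (hsub _ (huW i)).2
          simp [h0]
        | zero => simp
        | add a b _ _ ha hb => simp [ha, hb]
        | smul r a _ ha =>
          rw [HahnSeries.coeff_smul, ha, smul_zero]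
      have := hz _ hmem
      simp [hyn] at this

end Fermat.Agent.GoodReductionModular
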