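import Fermat.Agent.GoodReductionModular.T4
import Fermat.Agent.ModularFunctionField.InvariantPoly

/-!
# The `q`-series of the Hauptmoduls of `X₀(2)` and `X₀(3)`
-/

set_option autoImplicit false

noncomputable section

open ModularCurve
open Fermat.Agent.ModularFunctionField

namespace Fermat.Agent.GoodReductionModular

/-- The exponent of `η`: `24` for level `2`, `12` for level `3`. -/
def etaExp (h : ℕ) : ℕ := if h = 2 then 24 else 12

/-- Numerator of `j` as a rational function of the Hauptmodul. -/
def numJ (h : ℕ) : Polynomial ℤ :=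
  if h = 2 then (Polynomial.X + Polynomial.C 256) ^ 3
  else (Polynomial.X + Polynomial.C 27) * (Polynomial.X + Polynomial.C 243) ^ 3

/-- Numerator of `j(qʰ)` as a rational function of the Hauptmodul. -/
def numJh (h : ℕ) : Polynomial ℤ :=
  if h = 2 then (Polynomial.X + Polynomial.C 16) ^ 3
  else (Polynomial.X + Polynomial.C 27) * (Polynomial.X + Polynomial.C 3) ^ 3

/-- The inverse of the Euler product. -/
def etaInv : PowerSeries ℤ := etaProd.invOfUnit 1

/-- `etaInv` is inverse to the Euler product. -/
theorem etaProd_mul_etaInv : etaProd * etaInv = 1 :=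
  PowerSeries.mul_invOfUnit _ _ (by rw [constantCoeff_etaProd]; rfl)

theorem co_etaInv : co etaInv = ⟨1, 1, 2, 3⟩ := by
  have h := congrArg co etaProd_mul_etaInv
  rw [co_mul, co_one, co_etaProd] at h
  set x := co etaInv
  have ha : 1 * x.a = 1 := congrArg T4.a h
  have hb : 1 * x.b + (-1) * x.a = 0 := congrArg T4.b h
  have hc : 1 * x.c + (-1) * x.b + (-1) * x.a = 0 := congrArg T4.c h
  have hd : 1 * x.d + (-1) * x.c + (-1) * x.b + 0 * x.a = 0 := congrArg T4.d h
  ext <;> dsimp only <;> omega

variable (h : ℕ) [NeZero h]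

/-- `q` times the Hauptmodul. -/
def hauptA : PowerSeries ℤ :=
  etaProd ^ etaExp h * PowerSeries.expand h (NeZero.ne h) (etaInv ^ etaExp h)

/-- The inverse of the Hauptmodul divided by `q`. -/
def hauptB : PowerSeries ℤ :=
  PowerSeries.expand h (NeZero.ne h) (etaProd ^ etaExp h) * etaInv ^ etaExp h

theorem hauptA_mul_hauptB : hauptA h * hauptB h = 1 := by
  have e : etaProd ^ etaExp h * etaInv ^ etaExp h = 1 := by
    rw [← mul_pow, etaProd_mul_etaInv, one_pow]
  have e' : PowerSeries.expand h (NeZero.ne h) (etaProd ^ etaExp h) *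
      PowerSeries.expand h (NeZero.ne h) (etaInv ^ etaExp h) = 1 := by
    rw [← map_mul, e, map_one]
  rw [hauptA, hauptB]
  linear_combination (PowerSeries.expand h (NeZero.ne h) (etaProd ^ etaExp h) *
    PowerSeries.expand h (NeZero.ne h) (etaInv ^ etaExp h)) * e + e'

variable (R : Type*) [CommRing R]

/-- `q ↦ qʰ` on integral series is `PowerSeries.expand`. -/
theorem qExpand_intSeries (P : PowerSeries ℤ) :
    qExpand R h (intSeries R P) = intSeries R (PowerSeries.expand h (NeZero.ne h) P) := by
  ext n
  by_cases hn : (h : ℤ) ∣ n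
  · obtain ⟨m, rfl⟩ := hn
    rw [qExpand_coeff_mul]
    rcases le_or_gt 0 m with hm | hm
    · lift m to ℕ using hm
      rw [← Nat.cast_mul, intSeries_coeff_natCast, intSeries_coeff_natCast,
        PowerSeries.coeff_expand_mul]
    · have : (h : ℤ) * m < 0 :=
        mul_neg_of_pos_of_neg (by exact_mod_cast Nat.pos_of_ne_zero (NeZero.ne h)) hm
      rw [intSeries_coeff_of_neg _ _ hm, intSeries_coeff_of_neg _ _ this]
  · rw [qExpand_coeff_of_not_dvd h _ hn]
    rcases le_or_gt 0 n with hm | hm
    · lift n to ℕ using hm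
      rw [intSeries_coeff_natCast, PowerSeries.coeff_expand_of_not_dvd _ _ _
        (fun hd => hn (by exact_mod_cast hd)), Int.cast_zero]
    · rw [intSeries_coeff_of_neg _ _ hm]

/-- The Hauptmodul `q⁻¹ ∏ ((1-qⁿ)/(1-qʰⁿ))^(24/(h-1))`. -/
def hauptX : LaurentSeries R := HahnSeries.single (-1 : ℤ) 1 * intSeries R (hauptA h)

/-- Its inverse. -/
def hauptV : LaurentSeries R := HahnSeries.single (1 : ℤ) 1 * intSeries R (hauptB h)

/-- `hauptV` is inverse to the Hauptmodul series. -/
theorem hauptX_mul_hauptV : hauptX h R * hauptV h R = 1 := by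
  rw [hauptX, hauptV, mul_mul_mul_comm, HahnSeries.single_mul_single, ← map_mul,
    hauptA_mul_hauptB, map_one, mul_one, mul_one, neg_add_cancel, HahnSeries.single_zero_one]

/-- The Hauptmodul series commutes with change of coefficients. -/
theorem coeffMap_hauptX {S : Type*} [CommRing S] (f : R →+* S) :
    coeffMap f (hauptX h R) = hauptX h S := by
  rw [hauptX, map_mul, coeffMap_single, map_one, coeffMap_intSeries, hauptX]

/-- The inverse Hauptmodul series commutes with change of coefficients. -/
theorem coeffMap_hauptV {S : Type*} [CommRing S] (f : R →+* S) :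
    coeffMap f (hauptV h R) = hauptV h S := by
  rw [hauptV, map_mul, coeffMap_single, map_one, coeffMap_intSeries, hauptV]

/-- The defect of `j = R(x)`. -/
def defJ : LaurentSeries R :=
  (numJ h).eval₂ (Int.castRingHom _) (hauptX h R) * hauptV h R ^ h - jqModC R

/-- The defect of `j(qʰ) = R'(x)`. -/
def defJh : LaurentSeries R :=
  (numJh h).eval₂ (Int.castRingHom _) (hauptX h R) * hauptV h R - qExpand R h (jqModC R)

theorem single_mul_coeff_eq_zero (m : ℕ) (P : PowerSeries ℤ) (hP : ∀ i ≤ m, P.coeff i = 0)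
    {n : ℤ} (hn : n ≤ 0) :
    (HahnSeries.single (-(m : ℤ)) (1 : R) * intSeries R P).coeff n = 0 := by
  rw [HahnSeries.coeff_single_mul, one_mul]
  rcases le_or_gt 0 (n - -(m : ℤ)) with h0 | h0
  · obtain ⟨i, hi⟩ := Int.eq_ofNat_of_zero_le h0
    rw [hi, intSeries_coeff_natCast, hP i (by omega), Int.cast_zero]
  · exact intSeries_coeff_of_neg _ _ h0

theorem intCast_eq_intSeries (a : ℤ) :
    (Int.castRingHom (LaurentSeries R)) a = intSeries R (PowerSeries.C a) := by
  rw [← RingHom.comp_apply (intSeries R) PowerSeries.C]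
  exact RingHom.congr_fun (RingHom.ext_int _ _) a

theorem single_one_eq_intSeries_X :
    HahnSeries.single (1 : ℤ) (1 : R) = intSeries R PowerSeries.X := by
  rw [intSeries, RingHom.comp_apply, PowerSeries.map_X, HahnSeries.ofPowerSeries_X]

theorem jqModC_eq_single_mul :
    jqModC R = HahnSeries.single (-1 : ℤ) 1 * intSeries R jNum := rfl

theorem qExpand_jqModC_eq :
    qExpand R h (jqModC R) = HahnSeries.single (-(h : ℤ)) 1 *
      intSeries R (PowerSeries.expand h (NeZero.ne h) jNum) := by
  rw [jqModC_eq_single_mul, map_mul, qExpand_single, qExpand_intSeries, mul_neg_one]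

/-- The defect of `j = R(x)` has no coefficient in degree `≤ 0`. -/
theorem defJ_coeff_eq_zero (hh : h = 2 ∨ h = 3) {n : ℤ} (hn : n ≤ 0) :
    (defJ h R).coeff n = 0 := by
  set qi := HahnSeries.single (-1 : ℤ) (1 : R) with hqi
  set q := HahnSeries.single (1 : ℤ) (1 : R) with hq
  have hqq : qi * q = 1 := by
    rw [hqi, hq, HahnSeries.single_mul_single, mul_one, neg_add_cancel, HahnSeries.single_zero_one]
  have hq' : q = intSeries R PowerSeries.X := single_one_eq_intSeries_X R
  obtain ⟨P, hP, hP0⟩ : ∃ P, defJ h R = qi * intSeries R P ∧ ∀ i ≤ 1, P.coeff i = 0 := by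
    rcases hh with rfl | rfl
    · refine ⟨(hauptA 2 + PowerSeries.C 256 * PowerSeries.X) ^ 3 * hauptB 2 ^ 2 - jNum, ?_, ?_⟩
      · simp only [map_sub, map_mul, map_pow, map_add, ← hq', ← intCast_eq_intSeries]
        simp only [defJ, numJ, if_pos, Polynomial.eval₂_pow, Polynomial.eval₂_add,
          Polynomial.eval₂_X, Polynomial.eval₂_C, hauptX, hauptV, jqModC_eq_single_mul, ← hqi, ← hq]
        generalize intSeries R (hauptA 2) = A, intSeries R (hauptB 2) = B,
          (Int.castRingHom (LaurentSeries R)) 256 = c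
        grind
      · have hco : (co ((hauptA 2 + PowerSeries.C 256 * PowerSeries.X) ^ 3 * hauptB 2 ^ 2
            - jNum)).a = 0 ∧ (co ((hauptA 2 + PowerSeries.C 256 * PowerSeries.X) ^ 3 * hauptB 2 ^ 2
            - jNum)).b = 0 := by
          simp only [co_sub, co_mul, co_pow, co_add, co_C, co_X, hauptA, hauptB,
            co_expand _ _ (Or.inl rfl), co_etaProd, co_etaInv, co_jNum]
          decide
        intro i hi
        interval_cases i
        exacts [hco.1, hco.2]
    · refine ⟨(hauptA 3 + PowerSeries.C 27 * PowerSeries.X) *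
        (hauptA 3 + PowerSeries.C 243 * PowerSeries.X) ^ 3 * hauptB 3 ^ 3 - jNum, ?_, ?_⟩
      · simp only [map_sub, map_mul, map_pow, map_add, ← hq', ← intCast_eq_intSeries]
        simp only [defJ, numJ, show ¬ (3 : ℕ) = 2 by decide, if_false, Polynomial.eval₂_mul,
          Polynomial.eval₂_pow, Polynomial.eval₂_add,
          Polynomial.eval₂_X, Polynomial.eval₂_C, hauptX, hauptV, jqModC_eq_single_mul, ← hqi, ← hq]
        generalize intSeries R (hauptA 3) = A, intSeries R (hauptB 3) = B,
          (Int.castRingHom (LaurentSeries R)) 27 = c, (Int.castRingHom (LaurentSeries R)) 243 = c'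
        grind
      · have hco : (co ((hauptA 3 + PowerSeries.C 27 * PowerSeries.X) *
            (hauptA 3 + PowerSeries.C 243 * PowerSeries.X) ^ 3 * hauptB 3 ^ 3 - jNum)).a = 0 ∧
            (co ((hauptA 3 + PowerSeries.C 27 * PowerSeries.X) *
            (hauptA 3 + PowerSeries.C 243 * PowerSeries.X) ^ 3 * hauptB 3 ^ 3 - jNum)).b = 0 := by
          simp only [co_sub, co_mul, co_pow, co_add, co_C, co_X, hauptA, hauptB,
            co_expand _ _ (Or.inr rfl), co_etaProd, co_etaInv, co_jNum]
          decide
        intro i hi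
        interval_cases i
        exacts [hco.1, hco.2]
  rw [hP, hqi]
  exact single_mul_coeff_eq_zero R 1 P hP0 hn

/-- The defect of `j(qʰ) = R'(x)` has no coefficient in degree `≤ 0`. -/
theorem defJh_coeff_eq_zero (hh : h = 2 ∨ h = 3) {n : ℤ} (hn : n ≤ 0) :
    (defJh h R).coeff n = 0 := by
  set qi := HahnSeries.single (-1 : ℤ) (1 : R) with hqi
  set q := HahnSeries.single (1 : ℤ) (1 : R) with hq
  have hqq : qi * q = 1 := by
    rw [hqi, hq, HahnSeries.single_mul_single, mul_one, neg_add_cancel, HahnSeries.single_zero_one]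
  have hq' : q = intSeries R PowerSeries.X := single_one_eq_intSeries_X R
  have hqh : HahnSeries.single (-(h : ℤ)) (1 : R) = qi ^ h := by
    rw [hqi, HahnSeries.single_pow, one_pow]
    simp
  obtain ⟨P, hP, hP0⟩ : ∃ P, defJh h R = HahnSeries.single (-(h : ℤ)) (1 : R) * intSeries R P ∧
      ∀ i ≤ h, P.coeff i = 0 := by
    rcases hh with rfl | rfl
    · refine ⟨(hauptA 2 + PowerSeries.C 16 * PowerSeries.X) ^ 3 * hauptB 2 -
        PowerSeries.expand 2 (NeZero.ne 2) jNum, ?_, ?_⟩
      · simp only [map_sub, map_mul, map_pow, map_add, ← hq', ← intCast_eq_intSeries]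
        simp only [defJh, numJh, if_pos, Polynomial.eval₂_pow, Polynomial.eval₂_add,
          Polynomial.eval₂_X, Polynomial.eval₂_C, hauptX, hauptV, qExpand_jqModC_eq, ← hqi, ← hq,
          hqh]
        generalize intSeries R (hauptA 2) = A, intSeries R (hauptB 2) = B,
          (Int.castRingHom (LaurentSeries R)) 16 = c
        grind
      · intro i hi
        have hco : (co ((hauptA 2 + PowerSeries.C 16 * PowerSeries.X) ^ 3 * hauptB 2 -
            PowerSeries.expand 2 (NeZero.ne 2) jNum)).a = 0 ∧
          (co ((hauptA 2 + PowerSeries.C 16 * PowerSeries.X) ^ 3 * hauptB 2 -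
            PowerSeries.expand 2 (NeZero.ne 2) jNum)).b = 0 ∧
          (co ((hauptA 2 + PowerSeries.C 16 * PowerSeries.X) ^ 3 * hauptB 2 -
            PowerSeries.expand 2 (NeZero.ne 2) jNum)).c = 0 := by
          simp only [co_sub, co_mul, co_pow, co_add, co_C, co_X, hauptA, hauptB,
            co_expand _ _ (Or.inl rfl), co_etaProd, co_etaInv, co_jNum]
          decide
        interval_cases i
        exacts [hco.1, hco.2.1, hco.2.2]
    · refine ⟨(hauptA 3 + PowerSeries.C 27 * PowerSeries.X) *
        (hauptA 3 + PowerSeries.C 3 * PowerSeries.X) ^ 3 * hauptB 3 -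
        PowerSeries.expand 3 (NeZero.ne 3) jNum, ?_, ?_⟩
      · simp only [map_sub, map_mul, map_pow, map_add, ← hq', ← intCast_eq_intSeries]
        simp only [defJh, numJh, show ¬ (3 : ℕ) = 2 by decide, if_false, Polynomial.eval₂_mul,
          Polynomial.eval₂_pow, Polynomial.eval₂_add,
          Polynomial.eval₂_X, Polynomial.eval₂_C, hauptX, hauptV, qExpand_jqModC_eq, ← hqi, ← hq,
          hqh]
        generalize intSeries R (hauptA 3) = A, intSeries R (hauptB 3) = B,
          (Int.castRingHom (LaurentSeries R)) 27 = c, (Int.castRingHom (LaurentSeries R)) 3 = c'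
        grind
      · have hco : co ((hauptA 3 + PowerSeries.C 27 * PowerSeries.X) *
            (hauptA 3 + PowerSeries.C 3 * PowerSeries.X) ^ 3 * hauptB 3 -
            PowerSeries.expand 3 (NeZero.ne 3) jNum) = ⟨0, 0, 0, 0⟩ := by
          simp only [co_sub, co_mul, co_pow, co_add, co_C, co_X, hauptA, hauptB,
            co_expand _ _ (Or.inr rfl), co_etaProd, co_etaInv, co_jNum]
          decide
        intro i hi
        interval_cases i
        exacts [congrArg T4.a hco, congrArg T4.b hco, congrArg T4.c hco, congrArg T4.d hco]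
  rw [hP]
  exact single_mul_coeff_eq_zero R h P hP0 hn

end Fermat.Agent.GoodReductionModular
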