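import Fermat.Agent.GoodReductionModular.HauptSeries
import Mathlib.LinearAlgebra.Matrix.FixedDetMatrices

/-!
# `j = R(x)` and `j(qʰ) = R'(x)` for the Hauptmoduls of `X₀(2)` and `X₀(3)`

Writing `φ, φ'` for the defects, `(y - φ) ∏_b (y - φ'((τ+b)/h))` is invariant under `SL(2,ℤ)`
and tends to `y^(h+1)`, hence is constant and both defects vanish.
-/

set_option autoImplicit false

noncomputable section

open Filter Complex ModularCurve
open UpperHalfPlane hiding I
open scoped Topology MatrixGroups Manifold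
open Fermat.Agent.ModularFunctionField

namespace Fermat.Agent.GoodReductionModular

local notation "𝕢" => Function.Periodic.qParam

variable (h : ℕ)

/-- `ηʳ`. -/
def etaPow (z : ℂ) : ℂ := ModularForm.eta z ^ etaExp h

/-- The scalar of `ηʳ` under translation. -/
def tConst : ℂ := Complex.exp (2 * Real.pi * I / 24) ^ etaExp h

theorem etaExp_mul (hh : h = 2 ∨ h = 3) : etaExp h * (h - 1) = 24 := by
  rcases hh with rfl | rfl <;> simp [etaExp]

theorem tConst_pow (hh : h = 2 ∨ h = 3) : tConst h ^ (h - 1) = 1 := by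
  rw [tConst, ← pow_mul, etaExp_mul h hh, ← Complex.exp_nat_mul]
  rw [show ((24 : ℕ) : ℂ) * (2 * Real.pi * I / 24) = 2 * Real.pi * I by push_cast; ring]
  exact Complex.exp_two_pi_mul_I

theorem tConst_ne_zero : tConst h ≠ 0 := pow_ne_zero _ (Complex.exp_ne_zero _)

theorem etaPow_add_one (z : ℂ) : etaPow h (z + 1) = tConst h * etaPow h z := by
  rw [etaPow, etaPow, tConst, ← mul_pow]
  congr 1
  have h1 : 𝕢 1 (z + 1) = 𝕢 1 z := by
    rw [Function.Periodic.qParam, Function.Periodic.qParam, ofReal_one, div_one, div_one, mul_add,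
      mul_one, Complex.exp_add, Complex.exp_two_pi_mul_I, mul_one]
  simp only [ModularForm.eta, ModularForm.eta_q, h1]
  rw [← mul_assoc]
  congr 1
  rw [Function.Periodic.qParam, Function.Periodic.qParam, ← Complex.exp_add]
  congr 1
  push_cast
  ring

theorem etaPow_add_nat (z : ℂ) : ∀ n : ℕ, etaPow h (z + n) = tConst h ^ n * etaPow h z
  | 0 => by simp
  | n + 1 => by
    rw [Nat.cast_succ, ← add_assoc, etaPow_add_one, etaPow_add_nat z n, pow_succ]
    ring

theorem etaPow_ne_zero {z : ℂ} (hz : 0 < z.im) : etaPow h z ≠ 0 :=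
  pow_ne_zero _ (ModularForm.eta_ne_zero hz)

/-- The weight of `ηʳ`. -/
def etaWt : ℕ := etaExp h / 2

theorem etaExp_eq (hh : h = 2 ∨ h = 3) : etaExp h = 2 * etaWt h := by
  rcases hh with rfl | rfl <;> simp [etaWt, etaExp]

theorem exists_etaPow_S (hh : h = 2 ∨ h = 3) :
    ∃ c : ℂ, c ≠ 0 ∧ ∀ z : ℂ, 0 < z.im →
      etaPow h (-1 / z) = c * z ^ etaWt h * etaPow h z := by
  refine ⟨((Complex.sqrt I)⁻¹) ^ etaExp h, pow_ne_zero _ (inv_ne_zero ?_), fun z hz => ?_⟩
  · intro h0
    have := congrArg (· ^ 2) h0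
    simp only [Complex.sqrt, zero_pow two_ne_zero] at this
    rw [show ((2 : ℂ)⁻¹) = (((2 : ℕ) : ℂ))⁻¹ by norm_num,
      Complex.cpow_nat_inv_pow _ two_ne_zero] at this
    exact I_ne_zero this
  · have h1 : ModularForm.eta (-1 / z) =
        (Complex.sqrt I)⁻¹ * (Complex.sqrt z * ModularForm.eta z) :=
      ModularForm.eta_comp_eq_csqrt_I_inv hz
    rw [etaPow, etaPow, h1, mul_pow, mul_pow]
    have h2 : Complex.sqrt z ^ etaExp h = z ^ etaWt h := by
      rw [etaExp_eq h hh, pow_mul, Complex.sqrt,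
        show ((2 : ℂ)⁻¹) = (((2 : ℕ) : ℂ))⁻¹ by norm_num,
        Complex.cpow_nat_inv_pow _ two_ne_zero]
    rw [h2]
    ring

variable [NeZero h]

theorem im_natCast_mul (τ : ℍ) : 0 < ((h : ℂ) * τ).im := by
  have := τ.im_pos
  have : (0 : ℝ) < h := by exact_mod_cast Nat.pos_of_ne_zero (NeZero.ne h)
  simp [Complex.mul_im]
  positivity

/-- `τ ↦ hτ`. -/
def up (τ : ℍ) : ℍ := ⟨(h : ℂ) * τ, im_natCast_mul h τ⟩

/-- `τ ↦ (τ+b)/h`. -/
def down (b : ℤ) (τ : ℍ) : ℍ :=
  ⟨((τ : ℂ) + b) / h, by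
    rw [Complex.div_natCast_im, Complex.add_im, Complex.intCast_im, add_zero]
    exact div_pos τ.im_pos (by exact_mod_cast Nat.pos_of_ne_zero (NeZero.ne h))⟩

theorem coe_up (τ : ℍ) : (up h τ : ℂ) = (h : ℂ) * τ := rfl

theorem coe_down (b : ℤ) (τ : ℍ) : (down h b τ : ℂ) = ((τ : ℂ) + b) / h := rfl

theorem up_down (b : ℤ) (τ : ℍ) : up h (down h b τ) = (b : ℝ) +ᵥ τ := by
  refine UpperHalfPlane.ext ?_
  have : (h : ℂ) ≠ 0 := by exact_mod_cast NeZero.ne h
  rw [coe_up, coe_down, coe_vadd]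
  push_cast
  field_simp
  ring

theorem down_vadd_one (b : ℤ) (τ : ℍ) : down h b ((1 : ℝ) +ᵥ τ) = down h (b + 1) τ := by
  refine UpperHalfPlane.ext ?_
  rw [coe_down, coe_down, coe_vadd]
  push_cast
  ring

theorem down_add_level (b : ℤ) (τ : ℍ) : down h (b + h) τ = (1 : ℝ) +ᵥ down h b τ := by
  refine UpperHalfPlane.ext ?_
  have : (h : ℂ) ≠ 0 := by exact_mod_cast NeZero.ne h
  rw [coe_down, coe_vadd, coe_down]
  push_cast
  field_simp
  ring

/-- `S` acts by `τ ↦ -1/τ`. -/
theorem coe_S_smul (τ : ℍ) : ((ModularGroup.S • τ : ℍ) : ℂ) = -1 / τ := by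
  rw [modular_S_smul]
  show (-(τ : ℂ))⁻¹ = -1 / τ
  rw [inv_neg, neg_div, one_div]

/-- `S` is an involution of `ℍ`. -/
theorem S_smul_S_smul (τ : ℍ) : ModularGroup.S • (ModularGroup.S • τ) = τ := by
  refine UpperHalfPlane.ext ?_
  rw [coe_S_smul, coe_S_smul]
  have := τ.ne_zero
  field_simp

/-- The Hauptmodul as a function on `ℍ`. -/
def uFun (τ : ℍ) : ℂ := etaPow h τ / etaPow h ((h : ℂ) * τ)

theorem uFun_ne_zero (τ : ℍ) : uFun h τ ≠ 0 :=
  div_ne_zero (etaPow_ne_zero h τ.im_pos) (etaPow_ne_zero h (im_natCast_mul h τ))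

variable (hh : h = 2 ∨ h = 3)
include hh

theorem uFun_vadd_one (τ : ℍ) : uFun h ((1 : ℝ) +ᵥ τ) = uFun h τ := by
  have e := pow_succ (tConst h) (h - 1)
  rw [Nat.sub_add_cancel (Nat.pos_of_ne_zero (NeZero.ne h)), tConst_pow h hh, one_mul] at e
  rw [uFun, uFun, coe_vadd, ofReal_one, add_comm (1 : ℂ), etaPow_add_one, mul_add, mul_one,
    etaPow_add_nat, e, mul_div_mul_left _ _ (tConst_ne_zero h)]

/-- The Fricke involution inverts the Hauptmodul. -/
theorem uFun_fricke (τ : ℍ) :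
    uFun h (ModularGroup.S • up h τ) = (h : ℂ) ^ etaWt h / uFun h τ := by
  obtain ⟨c, hc, hS⟩ := exists_etaPow_S h hh
  have hτ := τ.ne_zero
  have hn : (h : ℂ) ≠ 0 := by exact_mod_cast NeZero.ne h
  have e : (h : ℂ) * (-1 / ((h : ℂ) * τ)) = -1 / τ := by field_simp
  rw [uFun, uFun, coe_S_smul, coe_up, e, hS _ (im_natCast_mul h τ), hS _ τ.im_pos, mul_pow]
  have := etaPow_ne_zero h τ.im_pos
  have := etaPow_ne_zero h (im_natCast_mul h τ)
  have : (τ : ℂ) ^ etaWt h ≠ 0 := pow_ne_zero _ hτ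
  field_simp

theorem uFun_down_one_S (τ : ℍ) :
    uFun h (down h 1 (ModularGroup.S • τ)) = uFun h (down h (-1) τ) := by
  set w := down h (-1) τ with hw
  have key : down h 1 (ModularGroup.S • τ) =
      ModularGroup.S • up h ((-1 : ℝ) +ᵥ ModularGroup.S • up h w) := by
    refine UpperHalfPlane.ext ?_
    rw [coe_down, coe_S_smul, coe_S_smul, coe_up, coe_vadd, coe_S_smul, coe_up, hw, coe_down]
    have hτ := τ.ne_zero
    have hn : (h : ℂ) ≠ 0 := by exact_mod_cast NeZero.ne h
    have h1 : (τ : ℂ) - 1 ≠ 0 := fun h0 => by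
      have := congrArg Complex.im h0
      simp at this
      exact τ.im_pos.ne' this
    have h1' : (τ : ℂ) + -1 ≠ 0 := by rwa [← sub_eq_add_neg]
    have h1'' : -(τ : ℂ) + 1 ≠ 0 := fun h0 => h1 (by linear_combination -h0)
    push_cast
    field_simp
    linear_combination (1 - (τ : ℂ)) * mul_inv_cancel₀ hτ
  have hT : uFun h ((-1 : ℝ) +ᵥ ModularGroup.S • up h w) = uFun h (ModularGroup.S • up h w) := by
    conv_rhs => rw [show ModularGroup.S • up h w =
      (1 : ℝ) +ᵥ ((-1 : ℝ) +ᵥ ModularGroup.S • up h w) by rw [vadd_vadd]; simp]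
    rw [uFun_vadd_one h hh]
  rw [key, uFun_fricke h hh, hT, uFun_fricke h hh, div_div_cancel₀]
  exact pow_ne_zero _ (by exact_mod_cast NeZero.ne h)

omit hh in
/-- The defect at `∞`. -/
def defInf (τ : ℍ) : ℂ :=
  (numJ h).eval₂ (Int.castRingHom ℂ) (uFun h τ) * (uFun h τ)⁻¹ ^ h - jFun τ

omit hh in
/-- The defect at `0`. -/
def defZero (τ : ℍ) : ℂ :=
  (numJh h).eval₂ (Int.castRingHom ℂ) (uFun h τ) * (uFun h τ)⁻¹ - jFun (up h τ)

theorem numJ_fricke {y : ℂ} (hy : y ≠ 0) :
    (numJ h).eval₂ (Int.castRingHom ℂ) ((h : ℂ) ^ etaWt h / y) *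
        ((h : ℂ) ^ etaWt h / y)⁻¹ ^ h = (numJh h).eval₂ (Int.castRingHom ℂ) y * y⁻¹ := by
  rcases hh with rfl | rfl
  · simp only [numJ, numJh, etaWt, etaExp, if_pos, Polynomial.eval₂_pow, Polynomial.eval₂_add,
      Polynomial.eval₂_X, eq_intCast]
    norm_num
    field_simp
    ring
  · simp only [numJ, numJh, etaWt, etaExp, show ¬ (3 : ℕ) = 2 by decide, if_false,
      Polynomial.eval₂_mul, Polynomial.eval₂_pow, Polynomial.eval₂_add,
      Polynomial.eval₂_X, eq_intCast]
    norm_num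
    field_simp
    ring

omit hh in
theorem jFun_vadd_int (b : ℤ) (τ : ℍ) : jFun ((b : ℝ) +ᵥ τ) = jFun τ := by
  rw [← UpperHalfPlane.modular_T_zpow_smul, jFun_invariant]

/-- The defect at the cusp `0`, moved to `τ`. -/
def psi (b : ℤ) (τ : ℍ) : ℂ := defZero h (down h b τ)

theorem defInf_S (τ : ℍ) : defInf h (ModularGroup.S • τ) = psi h 0 τ := by
  have hu : uFun h (ModularGroup.S • τ) = (h : ℂ) ^ etaWt h / uFun h (down h 0 τ) := by
    rw [← uFun_fricke h hh, up_down]
    simp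
  rw [defInf, psi, defZero, hu, numJ_fricke h hh (uFun_ne_zero h _), jFun_invariant, up_down,
    jFun_vadd_int]

theorem psi_zero_S (τ : ℍ) : psi h 0 (ModularGroup.S • τ) = defInf h τ := by
  rw [← defInf_S h hh, S_smul_S_smul]

omit hh in
/-- The defect `psi` written through the Hauptmodul at `(τ+b)/h`. -/
theorem psi_eq (b : ℤ) (τ : ℍ) : psi h b τ =
    (numJh h).eval₂ (Int.castRingHom ℂ) (uFun h (down h b τ)) * (uFun h (down h b τ))⁻¹
      - jFun τ := by
  rw [psi, defZero, up_down, jFun_vadd_int]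

theorem psi_one_S (τ : ℍ) : psi h 1 (ModularGroup.S • τ) = psi h (-1) τ := by
  rw [psi_eq, psi_eq, uFun_down_one_S h hh, jFun_invariant]

theorem psi_neg_one_S (τ : ℍ) : psi h (-1) (ModularGroup.S • τ) = psi h 1 τ := by
  rw [← psi_one_S h hh, S_smul_S_smul]

theorem psi_add_level (b : ℤ) (τ : ℍ) : psi h (b + h) τ = psi h b τ := by
  rw [psi_eq, psi_eq, down_add_level, uFun_vadd_one h hh]

omit hh in
theorem psi_vadd_one (b : ℤ) (τ : ℍ) : psi h b ((1 : ℝ) +ᵥ τ) = psi h (b + 1) τ := by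
  rw [psi, psi, down_vadd_one]

theorem defInf_vadd_one (τ : ℍ) : defInf h ((1 : ℝ) +ᵥ τ) = defInf h τ := by
  rw [defInf, defInf, uFun_vadd_one h hh, ← modular_T_smul, jFun_invariant]

omit hh in
/-- The product of all conjugates of `y - defect`. -/
def normFun (y : ℂ) (τ : ℍ) : ℂ :=
  (y - defInf h τ) * ∏ b ∈ Finset.range h, (y - psi h b τ)

theorem normFun_S (y : ℂ) (τ : ℍ) : normFun h y (ModularGroup.S • τ) = normFun h y τ := by
  have e1 := psi_one_S h hh τ
  have e2 := psi_neg_one_S h hh τ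
  have e3 : psi h (-1 + h) τ = psi h (-1) τ := psi_add_level h hh _ τ
  have e4 : psi h (-1 + h) (ModularGroup.S • τ) = psi h (-1) (ModularGroup.S • τ) :=
    psi_add_level h hh _ _
  have e5 := psi_zero_S h hh τ
  have e6 := defInf_S h hh τ
  rcases hh with rfl | rfl
  · rw [show (-1 : ℤ) + ((2 : ℕ) : ℤ) = 1 by norm_num] at e3
    simp only [normFun, Finset.prod_range_succ, Finset.prod_range_zero, Nat.cast_zero,
      Nat.cast_one, one_mul]
    rw [e5, e6, e1, ← e3]
    ring
  · rw [show (-1 : ℤ) + ((3 : ℕ) : ℤ) = 2 by norm_num] at e3 e4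
    simp only [normFun, Finset.prod_range_succ, Finset.prod_range_zero, Nat.cast_zero,
      Nat.cast_one, Nat.cast_ofNat, one_mul]
    rw [e5, e6, e1, e4, e2, ← e3]
    ring

theorem normFun_T (y : ℂ) (τ : ℍ) : normFun h y (ModularGroup.T • τ) = normFun h y τ := by
  have e3 : psi h (0 + h) τ = psi h 0 τ := psi_add_level h hh _ τ
  rw [zero_add] at e3
  rw [modular_T_smul, normFun, normFun, defInf_vadd_one h hh]
  congr 1
  simp only [psi_vadd_one]
  rcases hh with rfl | rfl
  · simp only [Finset.prod_range_succ, Finset.prod_range_zero, Nat.cast_zero, Nat.cast_one,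
      Nat.cast_ofNat, zero_add, one_mul] at e3 ⊢
    rw [show (1 : ℤ) + 1 = 2 by norm_num, e3]
    ring
  · simp only [Finset.prod_range_succ, Finset.prod_range_zero, Nat.cast_zero, Nat.cast_one,
      Nat.cast_ofNat, zero_add, one_mul] at e3 ⊢
    rw [show (1 : ℤ) + 1 = 2 by norm_num, show (2 : ℤ) + 1 = 3 by norm_num, e3]
    ring

theorem normFun_invariant (y : ℂ) (γ : SL(2, ℤ)) (τ : ℍ) :
    normFun h y (γ • τ) = normFun h y τ := by
  have hmem : γ ∈ Subgroup.closure {ModularGroup.S, ModularGroup.T} := by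
    rw [SpecialLinearGroup.SL2Z_generators]; trivial
  induction hmem using Subgroup.closure_induction generalizing τ with
  | mem x hx =>
    rcases hx with rfl | rfl
    · exact normFun_S h hh y τ
    · exact normFun_T h hh y τ
  | one => rw [one_smul]
  | mul a b _ _ ha hb => rw [mul_smul, ha, hb]
  | inv a _ ha => conv_rhs => rw [← smul_inv_smul a τ, ha]

omit [NeZero h] hh in
theorem differentiableAt_etaPow {z : ℂ} (hz : 0 < z.im) : DifferentiableAt ℂ (etaPow h) z :=
  (ModularForm.differentiableAt_eta_of_mem_upperHalfPlaneSet hz).fun_pow _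

omit hh in
/-- The Hauptmodul is holomorphic on `ℍ`. -/
theorem mdiff_uFun : MDiff (uFun h) := by
  rw [UpperHalfPlane.mdifferentiable_iff]
  have hd : ∀ z ∈ upperHalfPlaneSet, DifferentiableWithinAt ℂ
      (fun z : ℂ => etaPow h z / etaPow h ((h : ℂ) * z)) upperHalfPlaneSet z := by
    intro z hz
    have hi := im_natCast_mul h ⟨z, hz⟩
    exact ((differentiableAt_etaPow h hz).fun_div
      ((differentiableAt_etaPow h hi).comp z (differentiableAt_id.const_mul _))
      (etaPow_ne_zero h hi)).differentiableWithinAt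
  refine DifferentiableOn.congr hd fun z hz => ?_
  rw [Function.comp_apply, ofComplex_apply_of_im_pos hz]
  rfl

omit hh in
theorem mdiff_comp_map {f : ℍ → ℂ} (hf : MDiff f) (φ : ℍ → ℍ) (ψ : ℂ → ℂ)
    (hψ : Differentiable ℂ ψ) (hφ : ∀ τ : ℍ, ψ τ = φ τ) : MDiff fun τ => f (φ τ) := by
  rw [UpperHalfPlane.mdifferentiable_iff] at hf ⊢
  have h' := hf.comp (s := upperHalfPlaneSet) hψ.differentiableOn fun z hz => by
    show 0 < (ψ z).im
    rw [show ψ z = φ ⟨z, hz⟩ from hφ ⟨z, hz⟩]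
    exact (φ ⟨z, hz⟩).im_pos
  refine h'.congr fun z hz => ?_
  simp only [Function.comp_apply, ofComplex_apply_of_im_pos hz]
  have hz' : 0 < (ψ z).im := by
    rw [show ψ z = φ ⟨z, hz⟩ from hφ ⟨z, hz⟩]; exact (φ ⟨z, hz⟩).im_pos
  rw [ofComplex_apply_of_im_pos hz']
  exact congrArg f (UpperHalfPlane.ext (hφ ⟨z, hz⟩).symm)

omit hh in
theorem mdiff_eval_mul (P : Polynomial ℤ) (n : ℕ) {f : ℍ → ℂ} (hf : MDiff f)
    (hne : ∀ τ, f τ ≠ 0) :
    MDiff fun τ => P.eval₂ (Int.castRingHom ℂ) (f τ) * (f τ)⁻¹ ^ n := by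
  rw [UpperHalfPlane.mdifferentiable_iff] at hf ⊢
  have hP : Differentiable ℂ fun y : ℂ => P.eval₂ (Int.castRingHom ℂ) y := by
    simp only [Polynomial.eval₂_eq_eval_map]
    exact Polynomial.differentiable _
  exact (hP.comp_differentiableOn hf).mul ((hf.fun_inv fun z _ => hne _).fun_pow n)

omit hh in
theorem mdiff_defInf : MDiff (defInf h) :=
  (mdiff_eval_mul (numJ h) h (mdiff_uFun h) (uFun_ne_zero h)).sub mdiff_jFun

omit hh in
theorem mdiff_psi (b : ℤ) : MDiff (psi h b) := by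
  have h1 : MDiff fun τ => uFun h (down h b τ) :=
    mdiff_comp_map (mdiff_uFun h) _ (fun z => (z + b) / h) (by fun_prop) fun _ => rfl
  have h2 := (mdiff_eval_mul (numJh h) 1 h1 fun τ => uFun_ne_zero h _).sub mdiff_jFun
  refine (funext fun τ => ?_ : psi h b = _) ▸ h2
  simp [psi_eq]

omit hh in
theorem mdiff_normFun (y : ℂ) : MDiff (normFun h y) := by
  have h1 : ∀ (f : ℍ → ℂ), MDiff f → DifferentiableOn ℂ (f ∘ UpperHalfPlane.ofComplex)
      upperHalfPlaneSet := fun f hf => UpperHalfPlane.mdifferentiable_iff.mp hf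
  rw [UpperHalfPlane.mdifferentiable_iff]
  exact ((h1 _ (mdiff_defInf h)).const_sub y).mul
    (DifferentiableOn.fun_finsetProd fun b _ => (h1 _ (mdiff_psi h b)).const_sub y)

omit hh in
theorem tendsto_down (b : ℤ) : Tendsto (down h b) atImInfty atImInfty := by
  refine tendsto_comap_iff.mpr ?_
  have e : ∀ τ : ℍ, (down h b τ).im = τ.im / h := fun τ => by
    show (((τ : ℂ) + b) / h).im = _
    rw [Complex.div_natCast_im, Complex.add_im, Complex.intCast_im, add_zero]
    rfl
  exact (tendsto_comap.atTop_div_const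
    (by exact_mod_cast Nat.pos_of_ne_zero (NeZero.ne h))).congr fun τ => (e τ).symm

omit hh in
theorem tendsto_up : Tendsto (up h) atImInfty atImInfty := by
  refine tendsto_comap_iff.mpr ?_
  have e : ∀ τ : ℍ, (up h τ).im = h * τ.im := fun τ => by
    show (((h : ℂ) * τ)).im = _
    simp [Complex.mul_im]
  exact (tendsto_comap.const_mul_atTop
    (by exact_mod_cast Nat.pos_of_ne_zero (NeZero.ne h))).congr fun τ => (e τ).symm

omit hh in
theorem hasExp_up {f : ℍ → ℂ} {s : LaurentSeries ℂ} (hf : HasExp 1 f s) :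
    HasExp 1 (fun τ => f (up h τ)) (qExpand ℂ h s) := by
  have h' := hf.comp (N := 1) (up h) (tendsto_up h) 1 h fun τ => ?_
  · rwa [subst_one] at h'
  · rw [Units.val_one, one_mul, coe_up, Nat.cast_one, Function.Periodic.qParam,
      Function.Periodic.qParam, ← Complex.exp_nat_mul]
    congr 1
    push_cast
    ring

omit [NeZero h] hh in
/-- The expansion of the inverse Euler function is `etaInv`. -/
theorem hasExp_eulerFun_inv :
    HasExp 1 (fun τ : ℍ => (eulerFun (𝕢 1 τ))⁻¹) (intSeries ℂ etaInv) := by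
  have hd : DifferentiableOn ℂ (fun q => (eulerFun q)⁻¹) (Metric.ball 0 1) :=
    ModularForm.differentiableOn_tprod_one_sub_pow.fun_inv
      fun q hq => eulerFun_ne_zero (by simpa using hq)
  obtain ⟨s, hs⟩ : ∃ s : PowerSeries ℂ, ∀ m,
      iteratedDeriv m (fun q => (eulerFun q)⁻¹) 0 = (m.factorial : ℂ) * PowerSeries.coeff m s :=
    ⟨PowerSeries.mk fun m => iteratedDeriv m (fun q => (eulerFun q)⁻¹) 0 / m.factorial,
      fun m => by rw [PowerSeries.coeff_mk, mul_div_cancel₀]; exact_mod_cast m.factorial_ne_zero⟩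
  have h1 := hasExp_of_differentiableOn hd s hs
  refine h1.congr_series ?_
  have h2 := hasExp_eulerFun.inv one_ne_zero h1 fun τ => eulerFun_ne_zero
    (by simpa using UpperHalfPlane.norm_qParam_lt_one 1 τ)
  have h3 : intSeries ℂ etaProd * intSeries ℂ etaInv = 1 := by
    rw [← map_mul, etaProd_mul_etaInv, map_one]
  calc HahnSeries.ofPowerSeries ℤ ℂ s
      = (intSeries ℂ etaProd * intSeries ℂ etaInv) * HahnSeries.ofPowerSeries ℤ ℂ s := by
        rw [h3, one_mul]
    _ = intSeries ℂ etaInv * (intSeries ℂ etaProd * HahnSeries.ofPowerSeries ℤ ℂ s) := by ring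
    _ = intSeries ℂ etaInv := by rw [h2, mul_one]

theorem uFun_eq (τ : ℍ) : uFun h τ =
    1 * 𝕢 ((1 : ℕ) : ℝ) τ ^ (-1 : ℤ) *
      (eulerFun (𝕢 1 τ) ^ etaExp h * (eulerFun (𝕢 1 (up h τ)))⁻¹ ^ etaExp h) := by
  rw [uFun, etaPow, etaPow, one_mul, Nat.cast_one]
  have hr : ((etaExp h : ℂ)) * ((h : ℂ) - 1) = 24 := by
    rcases hh with rfl | rfl <;> norm_num [etaExp]
  have e : ∀ z : ℂ, ModularForm.eta z = 𝕢 24 z * eulerFun (𝕢 1 z) := fun z => rfl
  rw [e, e, mul_pow, mul_pow, inv_pow, coe_up]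
  have hq : 𝕢 24 (τ : ℂ) ^ etaExp h * (𝕢 24 ((h : ℂ) * τ) ^ etaExp h)⁻¹ =
      𝕢 1 (τ : ℂ) ^ (-1 : ℤ) := by
    rw [zpow_neg, zpow_one, Function.Periodic.qParam, Function.Periodic.qParam,
      Function.Periodic.qParam, ← Complex.exp_nat_mul, ← Complex.exp_nat_mul, ← Complex.exp_neg,
      ← Complex.exp_neg, ← Complex.exp_add]
    congr 1
    push_cast
    linear_combination (-(2 * Real.pi * I * (τ : ℂ)) / 24) * hr
  rw [← hq]
  field_simp

/-- The expansion of the Hauptmodul function is `hauptX`. -/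
theorem hasExp_uFun : HasExp 1 (uFun h) (hauptX h ℂ) := by
  have h1 := (HasExp.single 1 (-1) 1).mul
    ((hasExp_eulerFun.pow (etaExp h)).mul ((hasExp_up h hasExp_eulerFun_inv).pow (etaExp h)))
  refine (h1.congr fun τ => (uFun_eq h hh τ).symm).congr_series ?_
  rw [hauptX, hauptA, map_mul, ← qExpand_intSeries, map_pow, map_pow, map_pow]

theorem hasExp_uFun_inv : HasExp 1 (fun τ => (uFun h τ)⁻¹) (hauptV h ℂ) := by
  have h1 := (HasExp.single 1 1 1).mul
    (((hasExp_up h hasExp_eulerFun).pow (etaExp h)).mul (hasExp_eulerFun_inv.pow (etaExp h)))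
  refine (h1.congr fun τ => ?_).congr_series ?_
  · rw [uFun_eq h hh τ]
    simp only [mul_inv, inv_pow, inv_inv, inv_one, ← zpow_neg, neg_neg]
    ring
  · rw [hauptV, hauptB, map_mul, ← qExpand_intSeries, map_pow, map_pow, map_pow]

/-- The expansion of an integral polynomial in the Hauptmodul. -/
theorem hasExp_eval (P : Polynomial ℤ) :
    HasExp 1 (fun τ => P.eval₂ (Int.castRingHom ℂ) (uFun h τ))
      (P.eval₂ (Int.castRingHom _) (hauptX h ℂ)) := by
  induction P using Polynomial.induction_on' with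
  | add p q hp hq => simpa using hp.add hq
  | monomial n a =>
    simp only [Polynomial.eval₂_monomial]
    have := (HasExp.const 1 ((Int.castRingHom ℂ) a)).mul ((hasExp_uFun h hh).pow n)
    refine this.congr_series ?_
    simp

theorem hasExp_defInf : HasExp 1 (defInf h) (defJ h ℂ) :=
  ((hasExp_eval h hh _).mul ((hasExp_uFun_inv h hh).pow h)).sub hasExp_jFun

theorem hasExp_defZero : HasExp 1 (defZero h) (defJh h ℂ) :=
  ((hasExp_eval h hh _).mul (hasExp_uFun_inv h hh)).sub (hasExp_up h hasExp_jFun)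

theorem tendsto_defInf : Tendsto (defInf h) atImInfty (𝓝 0) := by
  have := (hasExp_defInf h hh).tendsto one_ne_zero fun n hn => defJ_coeff_eq_zero h ℂ hh hn.le
  rwa [defJ_coeff_eq_zero h ℂ hh le_rfl] at this

theorem tendsto_psi (b : ℤ) : Tendsto (psi h b) atImInfty (𝓝 0) := by
  have := (hasExp_defZero h hh).tendsto one_ne_zero fun n hn => defJh_coeff_eq_zero h ℂ hh hn.le
  rw [defJh_coeff_eq_zero h ℂ hh le_rfl] at this
  exact this.comp (tendsto_down h b)

theorem normFun_eq (y : ℂ) (τ : ℍ) : normFun h y τ = y ^ (h + 1) := by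
  have hlim : Tendsto (normFun h y) atImInfty (𝓝 (y ^ (h + 1))) := by
    have := ((tendsto_const_nhds (x := y)).sub (tendsto_defInf h hh)).mul
      (tendsto_finsetProd (Finset.range h) fun b _ =>
        (tendsto_const_nhds (x := y)).sub (tendsto_psi h hh b))
    rw [sub_zero, Finset.prod_const, Finset.card_range, ← pow_succ'] at this
    exact this
  obtain ⟨c, hc⟩ := eq_const_of_invariant _ (normFun_invariant h hh y) (mdiff_normFun h y)
    (hlim.isBigO_one ℝ)
  rw [hc] at hlim ⊢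
  exact tendsto_nhds_unique tendsto_const_nhds hlim

theorem defInf_eq_zero (τ : ℍ) : defInf h τ = 0 := by
  have := normFun_eq h hh (defInf h τ) τ
  rw [normFun, sub_self, zero_mul] at this
  exact eq_zero_of_pow_eq_zero this.symm

/-- The defect at the cusp `0`, moved to `τ`, vanishes. -/
theorem psi_eq_zero (τ : ℍ) : psi h 0 τ = 0 := by
  rw [← defInf_S h hh]
  exact defInf_eq_zero h hh _

theorem defZero_eq_zero (τ : ℍ) : defZero h τ = 0 := by
  have e : down h 0 (up h τ) = τ := by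
    refine UpperHalfPlane.ext ?_
    have : (h : ℂ) ≠ 0 := by exact_mod_cast NeZero.ne h
    rw [coe_down, coe_up]
    push_cast
    field_simp
    ring
  have := psi_eq_zero h hh (up h τ)
  rwa [psi, e] at this

omit [NeZero h] hh in
theorem coeffMap_eval₂ {R S : Type*} [CommRing R] [CommRing S] (f : R →+* S) (P : Polynomial ℤ)
    (x : LaurentSeries R) :
    coeffMap f (P.eval₂ (Int.castRingHom _) x) = P.eval₂ (Int.castRingHom _) (coeffMap f x) := by
  rw [Polynomial.hom_eval₂, RingHom.ext_int ((coeffMap f).comp (Int.castRingHom _))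
    (Int.castRingHom _)]

omit hh in
theorem coeffMap_defJ {R S : Type*} [CommRing R] [CommRing S] (f : R →+* S) :
    coeffMap f (defJ h R) = defJ h S := by
  rw [defJ, defJ, map_sub, map_mul, map_pow, coeffMap_eval₂, coeffMap_hauptX, coeffMap_hauptV,
    coeffMap_jqC]

omit hh in
theorem coeffMap_defJh {R S : Type*} [CommRing R] [CommRing S] (f : R →+* S) :
    coeffMap f (defJh h R) = defJh h S := by
  rw [defJh, defJh, map_sub, map_mul, coeffMap_eval₂, coeffMap_hauptX, coeffMap_hauptV,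
    coeffMap_qExpand', coeffMap_jqC]

theorem defJ_eq_zero (R : Type*) [CommRing R] : defJ h R = 0 := by
  have h0 : defJ h ℂ = 0 := (hasExp_defInf h hh).eq_zero one_ne_zero
    (Eventually.of_forall (defInf_eq_zero h hh))
  have h1 : defJ h ℤ = 0 := coeffMap_injective (Int.castRingHom ℂ) Int.cast_injective
    (by rw [coeffMap_defJ, h0, map_zero])
  rw [← coeffMap_defJ h (Int.castRingHom R), h1, map_zero]

theorem defJh_eq_zero (R : Type*) [CommRing R] : defJh h R = 0 := by
  have h0 : defJh h ℂ = 0 := (hasExp_defZero h hh).eq_zero one_ne_zero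
    (Eventually.of_forall (defZero_eq_zero h hh))
  have h1 : defJh h ℤ = 0 := coeffMap_injective (Int.castRingHom ℂ) Int.cast_injective
    (by rw [coeffMap_defJh, h0, map_zero])
  rw [← coeffMap_defJh h (Int.castRingHom R), h1, map_zero]

/-- `j · xʰ = Q(x)`, over any ring. -/
theorem jqModC_mul_hauptX_pow (R : Type*) [CommRing R] :
    jqModC R * hauptX h R ^ h = (numJ h).eval₂ (Int.castRingHom _) (hauptX h R) := by
  have h1 := defJ_eq_zero h hh R
  rw [defJ, sub_eq_zero] at h1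
  rw [← h1, mul_assoc, ← mul_pow, mul_comm (hauptV h R), hauptX_mul_hauptV, one_pow, mul_one]

/-- `j(qʰ) · x = Q'(x)`, over any ring. -/
theorem qExpand_jqModC_mul_hauptX (R : Type*) [CommRing R] :
    qExpand R h (jqModC R) * hauptX h R = (numJh h).eval₂ (Int.castRingHom _) (hauptX h R) := by
  have h1 := defJh_eq_zero h hh R
  rw [defJh, sub_eq_zero] at h1
  rw [← h1, mul_assoc, mul_comm (hauptV h R), hauptX_mul_hauptV, mul_one]

end Fermat.Agent.GoodReductionModular
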