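import Mathlib.RingTheory.PowerSeries.PiTopology
import Mathlib.RingTheory.PowerSeries.Expand
import Mathlib.Tactic
import Fermat.Prelude.Def_ModularCurve_X0
import Fermat.Agent.ModularFunctionField.Series

/-!
# The first four coefficients of integral power series
-/

set_option autoImplicit false

noncomputable section

open ModularCurve Filter
open scoped PowerSeries.WithPiTopology Topology

namespace Fermat.Agent.GoodReductionModular

/-- Power series modulo `X⁴`. -/
@[ext]
structure T4 where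
  a : ℤ
  b : ℤ
  c : ℤ
  d : ℤ
deriving DecidableEq

namespace T4

instance : Zero T4 := ⟨⟨0, 0, 0, 0⟩⟩
instance : One T4 := ⟨⟨1, 0, 0, 0⟩⟩
instance : Add T4 := ⟨fun x y => ⟨x.a + y.a, x.b + y.b, x.c + y.c, x.d + y.d⟩⟩
instance : Neg T4 := ⟨fun x => ⟨-x.a, -x.b, -x.c, -x.d⟩⟩
instance : Sub T4 := ⟨fun x y => ⟨x.a - y.a, x.b - y.b, x.c - y.c, x.d - y.d⟩⟩
instance : Mul T4 := ⟨fun x y => ⟨x.a * y.a, x.a * y.b + x.b * y.a,
  x.a * y.c + x.b * y.b + x.c * y.a, x.a * y.d + x.b * y.c + x.c * y.b + x.d * y.a⟩⟩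

/-- Powers. -/
def npow (x : T4) : ℕ → T4
  | 0 => 1
  | n + 1 => npow x n * x

/-- Substitution `X ↦ Xʰ` for `h ≥ 1`. -/
def expand (h : ℕ) (x : T4) : T4 :=
  if h = 1 then x else if h = 2 then ⟨x.a, 0, x.b, 0⟩ else if h = 3 then ⟨x.a, 0, 0, x.b⟩
  else ⟨x.a, 0, 0, 0⟩

end T4

/-- The truncation of a power series. -/
def co (P : PowerSeries ℤ) : T4 :=
  ⟨P.coeff 0, P.coeff 1, P.coeff 2, P.coeff 3⟩

/-- Truncation is additive. -/
theorem co_add (P Q : PowerSeries ℤ) : co (P + Q) = co P + co Q := by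
  ext <;> exact map_add _ _ _

/-- Truncation commutes with subtraction. -/
theorem co_sub (P Q : PowerSeries ℤ) : co (P - Q) = co P - co Q := by
  ext <;> exact map_sub _ _ _

/-- The truncation of a constant. -/
theorem co_C (r : ℤ) : co (PowerSeries.C r) = ⟨r, 0, 0, 0⟩ := by
  ext <;> simp only [co, PowerSeries.coeff_C] <;> rfl

/-- The truncation of `1`. -/
theorem co_one : co 1 = 1 := by
  ext <;> simp [co, PowerSeries.coeff_one] <;> rfl

/-- The truncation of `X`. -/
theorem co_X : co PowerSeries.X = ⟨0, 1, 0, 0⟩ := by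
  ext <;> simp [co, PowerSeries.coeff_X]

/-- Truncation is multiplicative. -/
theorem co_mul (P Q : PowerSeries ℤ) : co (P * Q) = co P * co Q := by
  ext <;>
  simp only [co, PowerSeries.coeff_mul, Finset.Nat.sum_antidiagonal_eq_sum_range_succ_mk,
    Finset.sum_range_succ, Finset.sum_range_zero, zero_add, Nat.sub_zero, Nat.sub_self] <;>
  norm_num <;> rfl

/-- Truncation commutes with powers. -/
theorem co_pow (P : PowerSeries ℤ) : ∀ n, co (P ^ n) = (co P).npow n
  | 0 => by rw [pow_zero]; exact co_one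
  | n + 1 => by rw [pow_succ, co_mul, co_pow P n]; rfl

/-- Truncation commutes with `X ↦ Xʰ`, for `h = 2, 3`. -/
theorem co_expand (h : ℕ) (hh : h ≠ 0) (h2 : h = 2 ∨ h = 3) (P : PowerSeries ℤ) :
    co (PowerSeries.expand h hh P) = (co P).expand h := by
  have e0 : (PowerSeries.expand h hh P).coeff 0 = P.coeff 0 := by simp
  rcases h2 with rfl | rfl
  · ext
    · exact e0
    · exact PowerSeries.coeff_expand_of_not_dvd 2 hh P (by decide)
    · exact PowerSeries.coeff_expand_mul 2 hh P 1
    · exact PowerSeries.coeff_expand_of_not_dvd 2 hh P (by decide)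
  · ext
    · exact e0
    · exact PowerSeries.coeff_expand_of_not_dvd 3 hh P (by decide)
    · exact PowerSeries.coeff_expand_of_not_dvd 3 hh P (by decide)
    · exact PowerSeries.coeff_expand_mul 3 hh P 1

theorem co_prod_range (M : ℕ) :
    co (∏ n ∈ Finset.range (M + 3), (1 - PowerSeries.X ^ (n + 1) : PowerSeries ℤ))
      = ⟨1, -1, -1, 0⟩ := by
  induction M with
  | zero =>
    simp only [Finset.prod_range_succ, Finset.prod_range_zero, co_mul, co_sub, co_one, co_pow,
      co_X]
    decide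
  | succ M ih =>
    have hX : co (PowerSeries.X ^ (M + 3 + 1)) = ⟨0, 0, 0, 0⟩ := by
      ext <;> simp [co, PowerSeries.coeff_X_pow]
    rw [show M + 1 + 3 = (M + 3) + 1 by ring, Finset.prod_range_succ, co_mul, ih, co_sub, co_one,
      hX]
    decide

/-- The Euler product modulo `X⁴`. -/
theorem co_etaProd : co etaProd = ⟨1, -1, -1, 0⟩ := by
  have key : ∀ m, ∀ᶠ s : Finset ℕ in atTop,
      (PowerSeries.coeff m) (∏ n ∈ s, (1 - PowerSeries.X ^ (n + 1) : PowerSeries ℤ))
        = (PowerSeries.coeff m) etaProd := by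
    intro m
    have h := (PowerSeries.WithPiTopology.multipliable_one_sub_X_pow ℤ).hasProd
    rw [HasProd, PowerSeries.WithPiTopology.tendsto_iff_coeff_tendsto] at h
    simpa [etaProd] using h m
  obtain ⟨s₀, hs₀⟩ := eventually_atTop.mp
    ((key 0).and ((key 1).and ((key 2).and (key 3))))
  have hsub : s₀ ⊆ Finset.range (s₀.sup id + 3) := fun n hn => Finset.mem_range.mpr (by
    have := Finset.le_sup (f := id) hn
    simp only [id_eq] at this
    omega)
  obtain ⟨h0, h1, h2, h3⟩ := hs₀ _ hsub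
  rw [← co_prod_range (s₀.sup id)]
  ext
  exacts [h0.symm, h1.symm, h2.symm, h3.symm]

theorem co_eisenstein4 : co eisenstein4 = ⟨1, 240, 2160, 6720⟩ := by
  ext <;> simp only [co, eisenstein4, PowerSeries.coeff_mk] <;> decide

theorem co_dedekindEtaUnitInv : co dedekindEtaUnitInv = ⟨1, 24, 324, 3200⟩ := by
  have h := congrArg co dedekindEtaUnit_mul_inv
  rw [co_mul, co_one, dedekindEtaUnit, co_pow, co_etaProd] at h
  have e : (T4.mk 1 (-1) (-1) 0).npow 24 = ⟨1, -24, 252, -1472⟩ := by decide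
  rw [e] at h
  set x := co dedekindEtaUnitInv
  have ha : 1 * x.a = 1 := congrArg T4.a h
  have hb : 1 * x.b + (-24) * x.a = 0 := congrArg T4.b h
  have hc : 1 * x.c + (-24) * x.b + 252 * x.a = 0 := congrArg T4.c h
  have hd : 1 * x.d + (-24) * x.c + 252 * x.b + (-1472) * x.a = 0 := congrArg T4.d h
  ext <;> dsimp only <;> omega

/-- The numerator of `j` modulo `X⁴`: the first coefficients of `q j`. -/
theorem co_jNum : co jNum = ⟨1, 744, 196884, 21493760⟩ := by
  rw [jNum, co_mul, co_pow, co_eisenstein4, co_dedekindEtaUnitInv]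
  decide

end Fermat.Agent.GoodReductionModular
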